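/-
S56 block (T), `H¹(Γ, ad⁰ ⊗ det) = 0`: definitions and elementary calculus for the sub-block `H1`.
-/
import Fermat.Agent.S56.T.Defs

set_option autoImplicit false

open Matrix

noncomputable section

namespace Fermat.Agent.S56.T

variable {k : Type*} [Field k]

@[simp] theorem coe_uu (x : k) : ((uu x : GL (Fin 2) k) : M2 k) = !![1, x; 0, 1] := rfl

@[simp] theorem coe_vv (y : k) : ((vv y : GL (Fin 2) k) : M2 k) = !![1, 0; y, 1] := rfl

theorem uu_add (x y : k) : uu (x + y) = uu x * uu y := by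
  apply Units.ext
  rw [Units.val_mul, coe_uu, coe_uu, coe_uu]
  ext i j
  fin_cases i <;> fin_cases j <;> simp [Matrix.mul_apply, Fin.sum_univ_two, add_comm]

theorem uu_zero : uu (0 : k) = 1 := by
  apply Units.ext
  rw [coe_uu, Units.val_one]
  ext i j
  fin_cases i <;> fin_cases j <;> simp

theorem uu_neg (x : k) : uu (-x) = (uu x)⁻¹ := by
  rw [eq_inv_iff_mul_eq_one, ← uu_add, neg_add_cancel, uu_zero]

theorem vv_add (x y : k) : vv (x + y) = vv x * vv y := by
  apply Units.ext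
  rw [Units.val_mul, coe_vv, coe_vv, coe_vv]
  ext i j
  fin_cases i <;> fin_cases j <;> simp [Matrix.mul_apply, Fin.sum_univ_two, add_comm]

theorem vv_zero : vv (0 : k) = 1 := by
  apply Units.ext
  rw [coe_vv, Units.val_one]
  ext i j
  fin_cases i <;> fin_cases j <;> simp

theorem vv_neg (x : k) : vv (-x) = (vv x)⁻¹ := by
  rw [eq_inv_iff_mul_eq_one, ← vv_add, neg_add_cancel, vv_zero]

theorem uu_injective : Function.Injective (uu : k → GL (Fin 2) k) := by
  intro x y h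
  have h1 := congrArg (fun g : GL (Fin 2) k => (g : M2 k) 0 1) h
  simpa using h1

theorem det_uu (x : k) : Matrix.GeneralLinearGroup.det (uu x) = 1 := by
  apply Units.ext
  rw [Matrix.GeneralLinearGroup.val_det_apply, coe_uu]
  simp [Matrix.det_fin_two]

theorem det_vv (y : k) : Matrix.GeneralLinearGroup.det (vv y) = 1 := by
  apply Units.ext
  rw [Matrix.GeneralLinearGroup.val_det_apply, coe_vv]
  simp [Matrix.det_fin_two]

/-- `act (uu x)` on a trace zero matrix. -/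
theorem act_uu (x a b g : k) :
    act (uu x) !![b, a; g, -b] = !![b + x * g, a - 2 * x * b - x ^ 2 * g; g, -(b + x * g)] := by
  rw [act, det_uu, ← uu_neg, coe_uu, coe_uu, Units.val_one, one_smul]
  ext i j
  fin_cases i <;> fin_cases j <;> simp [Matrix.mul_apply, Fin.sum_univ_two] <;> ring

/-- `act (vv y)` on a trace zero matrix. -/
theorem act_vv (y a b g : k) :
    act (vv y) !![b, a; g, -b] = !![b - y * a, a; g + 2 * y * b - y ^ 2 * a, -(b - y * a)] := by
  rw [act, det_vv, ← vv_neg, coe_vv, coe_vv, Units.val_one, one_smul]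
  ext i j
  fin_cases i <;> fin_cases j <;> simp [Matrix.mul_apply, Fin.sum_univ_two] <;> ring

/-- a trace zero matrix in coordinates. -/
theorem eq_of_trace_zero (X : M2 k) (h : X.trace = 0) : X = !![X 0 0, X 0 1; X 1 0, -X 0 0] := by
  rw [Matrix.trace_fin_two] at h
  ext i j
  fin_cases i <;> fin_cases j <;> simp
  linear_combination h

/-- `A = {x | uu x ∈ Γ}`. -/
def upA (Γ : Subgroup (GL (Fin 2) k)) : AddSubgroup k where
  carrier := {x | uu x ∈ Γ}
  add_mem' := by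
    intro x y hx hy
    show uu (x + y) ∈ Γ
    rw [uu_add]
    exact Γ.mul_mem hx hy
  zero_mem' := by
    show uu (0 : k) ∈ Γ
    rw [uu_zero]
    exact Γ.one_mem
  neg_mem' := by
    intro x hx
    show uu (-x) ∈ Γ
    rw [uu_neg]
    exact Γ.inv_mem hx

/-- `A' = {y | vv y ∈ Γ}`. -/
def loA (Γ : Subgroup (GL (Fin 2) k)) : AddSubgroup k where
  carrier := {y | vv y ∈ Γ}
  add_mem' := by
    intro x y hx hy
    show vv (x + y) ∈ Γ
    rw [vv_add]
    exact Γ.mul_mem hx hy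
  zero_mem' := by
    show vv (0 : k) ∈ Γ
    rw [vv_zero]
    exact Γ.one_mem
  neg_mem' := by
    intro x hx
    show vv (-x) ∈ Γ
    rw [vv_neg]
    exact Γ.inv_mem hx

theorem mem_upA {Γ : Subgroup (GL (Fin 2) k)} {x : k} : x ∈ upA Γ ↔ uu x ∈ Γ := Iff.rfl

theorem mem_loA {Γ : Subgroup (GL (Fin 2) k)} {y : k} : y ∈ loA Γ ↔ vv y ∈ Γ := Iff.rfl

/-- The upper unipotent elements of `Γ`. -/
def upU (Γ : Subgroup (GL (Fin 2) k)) : Subgroup (GL (Fin 2) k) where
  carrier := {g | g ∈ Γ ∧ ∃ x, g = uu x}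
  mul_mem' := by
    rintro _ _ ⟨hg, x, rfl⟩ ⟨hh, y, rfl⟩
    exact ⟨Γ.mul_mem hg hh, x + y, (uu_add x y).symm⟩
  one_mem' := ⟨Γ.one_mem, 0, uu_zero.symm⟩
  inv_mem' := by
    rintro _ ⟨hg, x, rfl⟩
    exact ⟨Γ.inv_mem hg, -x, (uu_neg x).symm⟩

theorem mem_upU {Γ : Subgroup (GL (Fin 2) k)} {g : GL (Fin 2) k} :
    g ∈ upU Γ ↔ g ∈ Γ ∧ ∃ x, g = uu x := Iff.rfl

theorem upU_le (Γ : Subgroup (GL (Fin 2) k)) : upU Γ ≤ Γ := fun _ h => h.1

/-- the conjugate subgroup `s Γ s⁻¹`. -/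
def conjSub (s : GL (Fin 2) k) (Γ : Subgroup (GL (Fin 2) k)) : Subgroup (GL (Fin 2) k) :=
  Γ.map (MulAut.conj s).toMonoidHom

theorem mem_conjSub {s g : GL (Fin 2) k} {Γ : Subgroup (GL (Fin 2) k)} :
    g ∈ conjSub s Γ ↔ s⁻¹ * g * s ∈ Γ := by
  rw [conjSub, Subgroup.mem_map]
  constructor
  · rintro ⟨h, hh, rfl⟩
    have : s⁻¹ * (MulAut.conj s).toMonoidHom h * s = h := by
      simp [MulAut.conj_apply, mul_assoc]
    rwa [this]
  · intro h
    exact ⟨_, h, by simp [MulAut.conj_apply, mul_assoc]⟩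

/-- the conjugate cocycle. -/
def conjCoc (s : GL (Fin 2) k) (c : GL (Fin 2) k → M2 k) : GL (Fin 2) k → M2 k :=
  fun g => act s (c (s⁻¹ * g * s))

theorem IsCoc.map_one {Γ : Subgroup (GL (Fin 2) k)} {c : GL (Fin 2) k → M2 k} (hc : IsCoc Γ c) :
    c 1 = 0 := by
  have h := hc.2 1 Γ.one_mem 1 Γ.one_mem
  rw [mul_one, act_one] at h
  exact left_eq_add.mp h

end Fermat.Agent.S56.T

end
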