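/-
S56 (T) H1, leaf AVG: restriction to a subgroup of index prime to `p` is injective on `H¹`.
-/
import Fermat.Agent.S56.T.H1.Defs

set_option autoImplicit false

open Matrix

noncomputable section

namespace Fermat.Agent.S56.T

variable {k : Type*} [Field k]

/-- **Averaging.**  `P ≤ Γ` of index prime to `p = char k`; a cocycle on `Γ` which is a coboundary on `P` is a
coboundary on `Γ`.
PROOF.  Let `c g = act g X - X` on `P`; `c' g := c g - (act g X - X)` is a cocycle on `Γ` vanishing on `P`, so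
`c' (g h) = c' g` for `g ∈ Γ`, `h ∈ P`: `c'` factors through `Q := ↥Γ ⧸ P.subgroupOf Γ` (a `Fintype`,
`Nat.card Q = P.relIndex Γ`).  `n := ∑_{x : Q} c'(x)`.  For `γ ∈ Γ`: `act γ n = ∑ (c'(γ x) - c' γ) = n - [Γ:P] c' γ`
(`x ↦ γ • x` is a permutation of `Q`: `MulAction.toPerm`, `Equiv.sum_comp`).  So
`c' γ = act γ Y - Y` with `Y := -[Γ:P]⁻¹ n`; the trace of `Y` is `0`. -/
theorem IsCob.of_relIndex [Finite k] {p : ℕ} [Fact p.Prime] [CharP k p]
    (P Γ : Subgroup (GL (Fin 2) k)) (hP : P ≤ Γ) (hidx : ¬ p ∣ P.relIndex Γ)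
    (c : GL (Fin 2) k → M2 k) (hc : IsCoc Γ c) (h : IsCob P c) : IsCob Γ c := by
  classical
  obtain ⟨X, hX, hXc⟩ := h
  obtain ⟨hct, hcc⟩ := hc
  set c' : GL (Fin 2) k → M2 k := fun g => c g - (act g X - X) with hc'
  have hc'coc : ∀ g ∈ Γ, ∀ h ∈ Γ, c' (g * h) = c' g + act g (c' h) := by
    intro g hg h hh
    simp only [hc', hcc g hg h hh, act_mul, act_sub]
    abel
  have hc'P : ∀ h ∈ P, c' h = 0 := by
    intro h hh
    simp only [hc', hXc h hh, sub_self]
  have hc'tr : ∀ g ∈ Γ, (c' g).trace = 0 := by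
    intro g hg
    simp only [hc', Matrix.trace_sub, hct g hg, trace_act, hX, mul_zero, sub_self]
  have hc'r : ∀ g ∈ Γ, ∀ h ∈ P, c' (g * h) = c' g := by
    intro g hg h hh
    rw [hc'coc g hg h (hP hh), hc'P h hh, act_zero, add_zero]
  let Q := ↥Γ ⧸ P.subgroupOf Γ
  haveI : Fintype Q := Fintype.ofFinite Q
  set n : M2 k := ∑ x : Q, c' ((x.out : Γ) : GL (Fin 2) k) with hn
  have hcard : ((Fintype.card Q : ℕ) : k) ≠ 0 := by
    rw [Ne, CharP.cast_eq_zero_iff k p, ← Nat.card_eq_fintype_card]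
    exact hidx
  have hout : ∀ (γ : Γ) (x : Q), c' (((γ • x).out : Γ) : GL (Fin 2) k)
      = c' ((γ : GL (Fin 2) k) * ((x.out : Γ) : GL (Fin 2) k)) := by
    intro γ x
    have h1 : γ • x = ((γ * x.out : Γ) : Q) := by
      conv_lhs => rw [← QuotientGroup.out_eq' x]
      rfl
    obtain ⟨h, hh⟩ := QuotientGroup.mk_out_eq_mul (P.subgroupOf Γ) (γ * x.out)
    rw [h1, hh]
    exact hc'r _ (γ * x.out).2 _ (Subgroup.mem_subgroupOf.1 h.2)
  have hact : ∀ γ : Γ, act (γ : GL (Fin 2) k) n = n - (Fintype.card Q : k) • c' γ := by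
    intro γ
    have h1 : act (γ : GL (Fin 2) k) n
        = ∑ x : Q, act (γ : GL (Fin 2) k) (c' ((x.out : Γ) : GL (Fin 2) k)) := by
      rw [hn]
      exact map_sum (actL (γ : GL (Fin 2) k)) _ _
    have h2 : ∀ x : Q, act (γ : GL (Fin 2) k) (c' ((x.out : Γ) : GL (Fin 2) k))
        = c' (((γ • x).out : Γ) : GL (Fin 2) k) - c' γ := by
      intro x
      rw [hout, hc'coc _ γ.2 _ x.out.2]
      abel
    rw [h1, Finset.sum_congr rfl (fun x _ => h2 x), Finset.sum_sub_distrib, Finset.sum_const,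
      Finset.card_univ, ← Nat.cast_smul_eq_nsmul k]
    congr 1
    exact Equiv.sum_comp (MulAction.toPerm γ) (fun x : Q => c' ((x.out : Γ) : GL (Fin 2) k))
  refine ⟨X - (Fintype.card Q : k)⁻¹ • n, ?_, fun γ hγ => ?_⟩
  · rw [Matrix.trace_sub, hX, Matrix.trace_smul, hn, Matrix.trace_sum,
      Finset.sum_eq_zero (fun x _ => hc'tr _ x.out.2), smul_zero, sub_zero]
  · have h1 := hact ⟨γ, hγ⟩
    have h2 : c γ = c' γ + (act γ X - X) := by
      simp only [hc']
      abel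
    rw [h2, act_sub, act_smul, h1, smul_sub, smul_smul, inv_mul_cancel₀ hcard, one_smul]
    abel

end Fermat.Agent.S56.T

end
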