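/-
S56 (T) H1, leaf CONJ: invariance under conjugation by `GL₂(k)`.
-/
import Fermat.Agent.S56.T.H1.Defs

set_option autoImplicit false

open Matrix

noncomputable section

namespace Fermat.Agent.S56.T

variable {k : Type*} [Field k]

theorem IsCoc.conj {Γ : Subgroup (GL (Fin 2) k)} {c : GL (Fin 2) k → M2 k} (hc : IsCoc Γ c)
    (s : GL (Fin 2) k) : IsCoc (conjSub s Γ) (conjCoc s c) := by
  refine ⟨fun g hg => ?_, fun g hg h hh => ?_⟩
  · rw [mem_conjSub] at hg
    rw [conjCoc, trace_act, hc.1 _ hg, mul_zero]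
  · rw [mem_conjSub] at hg hh
    have e1 : s⁻¹ * (g * h) * s = (s⁻¹ * g * s) * (s⁻¹ * h * s) := by group
    simp only [conjCoc]
    rw [e1, hc.2 _ hg _ hh, act_add, ← act_mul, ← act_mul]
    congr 2
    group

/-- `conjCoc s c g = act g Y - Y` on `s Γ s⁻¹`  ⟹  `c h = act h X - X` on `Γ` with `X := act s⁻¹ Y`. -/
theorem IsCob.of_conj {Γ : Subgroup (GL (Fin 2) k)} {c : GL (Fin 2) k → M2 k}
    (s : GL (Fin 2) k) (h : IsCob (conjSub s Γ) (conjCoc s c)) : IsCob Γ c := by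
  obtain ⟨Y, hY, hc⟩ := h
  refine ⟨act s⁻¹ Y, by rw [trace_act, hY, mul_zero], fun g hg => ?_⟩
  have hmem : s * g * s⁻¹ ∈ conjSub s Γ := by
    rw [mem_conjSub]
    have e : s⁻¹ * (s * g * s⁻¹) * s = g := by group
    rwa [e]
  have h1 := hc _ hmem
  have e : s⁻¹ * (s * g * s⁻¹) * s = g := by group
  rw [conjCoc, e] at h1
  have h2 : act s⁻¹ (act s (c g)) = c g := by
    rw [← act_mul, inv_mul_cancel, act_one]
  rw [← h2, h1, act_sub, ← act_mul, ← act_mul]
  congr 2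
  group

end Fermat.Agent.S56.T

end
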