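/-
S56 (T) H1, leaf NORMAL: normal form of a cocycle on a unipotent subgroup (abstract: three functions on an additive
subgroup of `k`).  Pure algebra.
-/
import Fermat.Agent.S56.T.H1.Defs

set_option autoImplicit false

open Matrix

noncomputable section

namespace Fermat.Agent.S56.T

variable {k : Type*} [Field k]

/-- The cocycle identities for `c (uu x) = !![be x, al x; ga x, - be x]`, `x ∈ A`. -/
structure CocId (A : AddSubgroup k) (al be ga : k → k) : Prop where
  ga_add : ∀ x ∈ A, ∀ y ∈ A, ga (x + y) = ga x + ga y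
  be_add : ∀ x ∈ A, ∀ y ∈ A, be (x + y) = be x + be y + x * ga y
  al_add : ∀ x ∈ A, ∀ y ∈ A, al (x + y) = al x + al y - 2 * x * be y - x ^ 2 * ga y

/-- The normal form.  (If `3 = 0` in `k` then `c0 = 0` and the term `c0 * x ^ 3 / 3` is `0`.) -/
structure NForm (A : AddSubgroup k) (al be ga : k → k) (c0 b0 : k) (lam : k → k) : Prop where
  ga_eq : ∀ x ∈ A, ga x = c0 * x
  be_eq : ∀ x ∈ A, be x = c0 * x ^ 2 / 2 + b0 * x
  al_eq : ∀ x ∈ A, al x = - (c0 * x ^ 3 / 3) - b0 * x ^ 2 + lam x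
  lam_add : ∀ x ∈ A, ∀ y ∈ A, lam (x + y) = lam x + lam y

/-- **Normal form.**
PROOF.  If `A = ⊥`: `c0 = b0 = 0`, `lam = al` (all functions vanish at `0`).  Otherwise fix `x₁ ∈ A`, `x₁ ≠ 0`.
`be (x+y) = be (y+x)` gives `x ga y = y ga x`: `c0 := ga x₁ / x₁`.  `b x := be x - c0 x²/2` is additive;
`al (x+y) = al (y+x)` gives `x b y = y b x`: `b0 := b x₁ / x₁`.  `p ≠ 3`: `lam x := al x + c0 x³/3 + b0 x²` is
additive (`field_simp; ring`).  `p = 3`: `al (x₁+x₁+x₁) = al 0 = 0` expands to `- 5 x₁² ga x₁ - 6 x₁ be x₁ + 3 al x₁`,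
i.e. `x₁³ c0 = 0`, so `c0 = 0`; `lam x := al x + b0 x²`. -/
theorem CocId.exists_nform {p : ℕ} [Fact p.Prime] [CharP k p] (hp2 : p ≠ 2) {A : AddSubgroup k}
    {al be ga : k → k} (h : CocId A al be ga) :
    ∃ (c0 b0 : k) (lam : k → k), NForm A al be ga c0 b0 lam ∧ (p = 3 → c0 = 0) := by
  have h2 : (2 : k) ≠ 0 := by
    intro h0
    have h1 : ((2 : ℕ) : k) = 0 := by exact_mod_cast h0
    rw [CharP.cast_eq_zero_iff k p] at h1
    exact hp2 ((Nat.prime_dvd_prime_iff_eq Fact.out Nat.prime_two).1 h1)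
  have h2i : (2 : k) * (2 : k)⁻¹ = 1 := mul_inv_cancel₀ h2
  have hga0 : ga 0 = 0 := by
    have h1 := h.ga_add 0 A.zero_mem 0 A.zero_mem
    rw [add_zero] at h1
    linear_combination -h1
  have hbe0 : be 0 = 0 := by
    have h1 := h.be_add 0 A.zero_mem 0 A.zero_mem
    rw [add_zero] at h1
    linear_combination -h1
  have hal0 : al 0 = 0 := by
    have h1 := h.al_add 0 A.zero_mem 0 A.zero_mem
    rw [add_zero] at h1
    linear_combination -h1
  by_cases hA : ∀ x ∈ A, x = 0
  · refine ⟨0, 0, al, ⟨?_, ?_, ?_, ?_⟩, fun _ => rfl⟩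
    · intro x hx
      rw [hA x hx, hga0, mul_zero]
    · intro x hx
      rw [hA x hx, hbe0]
      simp
    · intro x hx
      simp
    · intro x hx y hy
      rw [hA x hx, hA y hy, add_zero, hal0, add_zero]
  · push Not at hA
    obtain ⟨X, hX, hne⟩ := hA
    have hsymG : ∀ x ∈ A, ∀ y ∈ A, x * ga y = y * ga x := by
      intro x hx y hy
      have e1 := h.be_add x hx y hy
      have e2 := h.be_add y hy x hx
      rw [add_comm y x] at e2
      linear_combination e2 - e1
    obtain ⟨c0, hc0⟩ : ∃ c0, c0 * X = ga X := ⟨ga X / X, div_mul_cancel₀ _ hne⟩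
    have hga : ∀ x ∈ A, ga x = c0 * x := by
      intro x hx
      have s := hsymG X hX x hx
      apply mul_left_cancel₀ hne
      linear_combination s - x * hc0
    have hsymB : ∀ x ∈ A, ∀ y ∈ A, x * (be y - c0 * y ^ 2 * (2 : k)⁻¹) =
        y * (be x - c0 * x ^ 2 * (2 : k)⁻¹) := by
      intro x hx y hy
      have a1 := h.al_add x hx y hy
      have a2 := h.al_add y hy x hx
      rw [add_comm y x] at a2
      have gx := hga x hx
      have gy := hga y hy
      apply mul_left_cancel₀ h2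
      linear_combination (a1 - a2) - x ^ 2 * gy + y ^ 2 * gx +
        (c0 * x ^ 2 * y - c0 * x * y ^ 2) * h2i
    obtain ⟨b0, hb0⟩ : ∃ b0, b0 * X = be X - c0 * X ^ 2 * (2 : k)⁻¹ :=
      ⟨(be X - c0 * X ^ 2 * (2 : k)⁻¹) / X, div_mul_cancel₀ _ hne⟩
    have hbe : ∀ x ∈ A, be x = c0 * x ^ 2 * (2 : k)⁻¹ + b0 * x := by
      intro x hx
      have s := hsymB X hX x hx
      apply mul_left_cancel₀ hne
      linear_combination s - x * hb0
    have hc3 : (3 : k) = 0 → c0 = 0 := by
      intro h3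
      have hXX : X + X ∈ A := A.add_mem hX hX
      have a2x := h.al_add X hX X hX
      have a3x := h.al_add X hX (X + X) hXX
      have b2 := h.be_add X hX X hX
      have g2 := h.ga_add X hX X hX
      have h0 : X + (X + X) = 0 := by linear_combination X * h3
      rw [h0] at a3x
      have h4 : X ^ 2 * ga X = 0 := by
        linear_combination -a3x - a2x + 2 * X * b2 + X ^ 2 * g2 + hal0 +
          (2 * X ^ 2 * ga X - al X + 2 * X * be X) * h3
      have h5 : ga X = 0 := by
        rcases mul_eq_zero.1 h4 with h6 | h6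
        · exact absurd (pow_eq_zero_iff (two_ne_zero)|>.1 h6) hne
        · exact h6
      rw [h5] at hc0
      rcases mul_eq_zero.1 hc0 with h6 | h6
      · exact h6
      · exact absurd h6 hne
    have hkey : c0 * (3 * (3 : k)⁻¹ - 1) = 0 := by
      by_cases h3 : (3 : k) = 0
      · rw [hc3 h3, zero_mul]
      · rw [mul_inv_cancel₀ h3, sub_self, mul_zero]
    refine ⟨c0, b0, fun x => al x + c0 * x ^ 3 * (3 : k)⁻¹ + b0 * x ^ 2, ⟨hga, ?_, ?_, ?_⟩, ?_⟩
    · intro x hx
      rw [div_eq_mul_inv]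
      exact hbe x hx
    · intro x hx
      rw [div_eq_mul_inv]
      ring
    · intro x hx y hy
      have a1 := h.al_add x hx y hy
      have gy := hga y hy
      have bey := hbe y hy
      show al (x + y) + c0 * (x + y) ^ 3 * (3 : k)⁻¹ + b0 * (x + y) ^ 2 =
        (al x + c0 * x ^ 3 * (3 : k)⁻¹ + b0 * x ^ 2) + (al y + c0 * y ^ 3 * (3 : k)⁻¹ + b0 * y ^ 2)
      linear_combination a1 - 2 * x * bey - x ^ 2 * gy - c0 * x * y ^ 2 * h2i +
        (x ^ 2 * y + x * y ^ 2) * hkey
    · intro hp3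
      apply hc3
      have h1 : ((p : ℕ) : k) = 0 := CharP.cast_eq_zero k p
      rw [hp3] at h1
      exact_mod_cast h1

end Fermat.Agent.S56.T

end
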