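/-
S56 (T) H1, leaf RIGID: `p`-regular elements are rigid.
-/
import Fermat.Agent.S56.T.H1.Defs

set_option autoImplicit false

open Matrix

noncomputable section

namespace Fermat.Agent.S56.T

variable {k : Type*} [Field k]

/-- Cayley-Hamilton for `2 × 2` matrices. -/
theorem Rigid_sq (m : M2 k) : m * m = m.trace • m - m.det • (1 : M2 k) := by
  rw [Matrix.trace_fin_two, Matrix.det_fin_two]
  ext i j
  fin_cases i <;> fin_cases j <;> simp [Matrix.mul_apply, Fin.sum_univ_two] <;> ring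

theorem Rigid_exists_pow_eq (m : M2 k) (b : ℕ) : ∃ s t : k, m ^ b = s • (1 : M2 k) + t • m := by
  induction b with
  | zero => exact ⟨1, 0, by simp⟩
  | succ b ih =>
    obtain ⟨s, t, h⟩ := ih
    refine ⟨-(t * m.det), s + t * m.trace, ?_⟩
    rw [pow_succ, h, add_mul, Matrix.smul_mul, Matrix.smul_mul, Matrix.one_mul, Rigid_sq, smul_sub,
      smul_smul, smul_smul, add_smul, neg_smul]
    abel

theorem Rigid_trace_act_mul (g : GL (Fin 2) k) (hg : Matrix.GeneralLinearGroup.det g = 1)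
    (Y Z : M2 k) (hZ : Z * (g : M2 k) = (g : M2 k) * Z) :
    (act g Y * Z).trace = (Y * Z).trace := by
  have h : ((g⁻¹ : GL (Fin 2) k) : M2 k) * (g : M2 k) = 1 := by
    rw [← Units.val_mul, inv_mul_cancel, Units.val_one]
  rw [act, hg, Units.val_one, one_smul, Matrix.mul_assoc, Matrix.mul_assoc, Matrix.trace_mul_comm,
    Matrix.mul_assoc, Matrix.mul_assoc, hZ, ← Matrix.mul_assoc _ (g : M2 k) Z, h, Matrix.one_mul]

/-- `det g = 1`, `(tr g)² ≠ 4`  ⟹  `p ∤ ord g`.
PROOF.  Otherwise `h := g ^ (ord g / p)` has order `p`; `(h - 1)^p = h^p - 1 = 0` (`sub_pow_char_of_commute` or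
`Commute.sub_pow...`), so `N := h - 1` is nilpotent: `tr N = 0 = det N`
(`Matrix.isNilpotent_trace_of_isNilpotent`, `Matrix.isNilpotent_det_of_isNilpotent`).  By Cayley-Hamilton
`g² = τ g - 1`, so every power of `g` is `α g + β` (induction), `N = α g + β'`; `tr N = α τ + 2 β' = 0`,
`det N = α² + α β' τ + β'² = α² (1 - τ²/4) = 0`, so `α = 0 = β'`, `h = 1`: contradiction. -/
theorem not_dvd_orderOf [Finite k] {p : ℕ} [Fact p.Prime] [CharP k p] (hp2 : p ≠ 2)
    (g : GL (Fin 2) k) (hdet : Matrix.GeneralLinearGroup.det g = 1)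
    (htr : (g : M2 k).trace ^ 2 ≠ 4) : ¬ p ∣ orderOf g := by
  intro hdvd
  have hp : p.Prime := Fact.out
  have hn : 0 < orderOf g := orderOf_pos g
  have h2 : (2 : k) ≠ 0 := by
    intro h
    have h' : ((2 : ℕ) : k) = 0 := by exact_mod_cast h
    rw [CharP.cast_eq_zero_iff k p 2] at h'
    exact hp2 ((Nat.prime_dvd_prime_iff_eq hp Nat.prime_two).1 h')
  set G : M2 k := (g : M2 k) with hG
  have hdetG : G.det = 1 := by
    have := congrArg Units.val hdet
    rwa [Matrix.GeneralLinearGroup.val_det_apply, Units.val_one] at this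
  obtain ⟨s, t, hst⟩ := Rigid_exists_pow_eq G (orderOf g / p)
  have hHp : (G ^ (orderOf g / p)) ^ p = 1 := by
    rw [← pow_mul, Nat.div_mul_cancel hdvd, hG, ← Units.val_pow_eq_pow_val, pow_orderOf_eq_one,
      Units.val_one]
  have hnil : IsNilpotent (G ^ (orderOf g / p) - 1) := by
    refine ⟨p, ?_⟩
    rw [sub_pow_char_of_commute p (Commute.one_right _), hHp, one_pow, sub_self]
  have hT : (G ^ (orderOf g / p) - 1).trace = 0 :=
    (Matrix.isNilpotent_trace_of_isNilpotent hnil).eq_zero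
  have hD : (G ^ (orderOf g / p) - 1).det = 0 := by
    obtain ⟨n, hn'⟩ := hnil
    have h0 : (G ^ (orderOf g / p) - 1).det ^ n = 0 := by
      rw [← Matrix.det_pow, hn', Matrix.det_zero]
    exact IsNilpotent.eq_zero ⟨n, h0⟩
  rw [hst, Matrix.trace_fin_two] at hT
  rw [hst, Matrix.det_fin_two] at hD
  rw [Matrix.det_fin_two] at hdetG
  rw [Matrix.trace_fin_two] at htr
  simp only [Matrix.sub_apply, Matrix.add_apply, Matrix.smul_apply, Matrix.one_apply_eq,
    smul_eq_mul, mul_one, ne_eq, Fin.isValue, zero_ne_one, one_ne_zero, not_false_eq_true,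
    Matrix.one_apply_ne, mul_zero, zero_add, sub_zero] at hT hD
  have hkey : t ^ 2 * (4 - (G 0 0 + G 1 1) ^ 2) = 0 := by
    linear_combination 4 * hD - (s + t * G 0 0 - 1 + (s + t * G 1 1 - 1)) * hT -
      4 * t ^ 2 * hdetG
  have ht : t = 0 := by
    rcases mul_eq_zero.1 hkey with h | h
    · exact pow_eq_zero_iff (two_ne_zero) |>.1 h
    · exact absurd (sub_eq_zero.1 h).symm htr
  have hs : s = 1 := by
    rw [ht] at hT
    have : 2 * (s - 1) = 0 := by linear_combination hT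
    rcases mul_eq_zero.1 this with h | h
    · exact absurd h h2
    · exact sub_eq_zero.1 h
  have hone : g ^ (orderOf g / p) = 1 := by
    apply Units.ext
    rw [Units.val_pow_eq_pow_val, Units.val_one, ← hG, hst, hs, ht, one_smul, zero_smul, add_zero]
  have h3 := orderOf_dvd_of_pow_eq_one hone
  have h4 : 0 < orderOf g / p := Nat.div_pos (Nat.le_of_dvd hn hdvd) hp.pos
  have h5 : orderOf g / p < orderOf g := Nat.div_lt_self hn hp.one_lt
  exact absurd (Nat.le_of_dvd h4 h3) (not_le.2 h5)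

/-- `c (g ^ n) = ∑_{i<n} act (g ^ i) (c g)`. -/
theorem IsCoc.map_pow {Γ : Subgroup (GL (Fin 2) k)} {c : GL (Fin 2) k → M2 k} (hc : IsCoc Γ c)
    {g : GL (Fin 2) k} (hg : g ∈ Γ) (n : ℕ) :
    c (g ^ n) = ∑ i ∈ Finset.range n, act (g ^ i) (c g) := by
  induction n with
  | zero => rw [pow_zero, hc.map_one, Finset.range_zero, Finset.sum_empty]
  | succ n ih =>
    rw [pow_succ, hc.2 _ (Γ.pow_mem hg n) _ hg, ih, Finset.sum_range_succ]

/-- **Rigidity**: `tr (c g * g) = 0`.  (`X ↦ tr (X g)` is invariant under `act (g^i)`: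
`trace_act_sub_mul`-like; `0 = tr (c (g ^ m) g) = m tr (c g g)`, `m = orderOf g`.) -/
theorem IsCoc.trace_mul_self [Finite k] {p : ℕ} [Fact p.Prime] [CharP k p] (hp2 : p ≠ 2)
    {Γ : Subgroup (GL (Fin 2) k)} {c : GL (Fin 2) k → M2 k} (hc : IsCoc Γ c)
    {g : GL (Fin 2) k} (hg : g ∈ Γ) (hdet : Matrix.GeneralLinearGroup.det g = 1)
    (htr : (g : M2 k).trace ^ 2 ≠ 4) : (c g * (g : M2 k)).trace = 0 := by
  have h1 := hc.map_pow hg (orderOf g)
  rw [pow_orderOf_eq_one, hc.map_one] at h1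
  have h2 : ∀ i : ℕ, (act (g ^ i) (c g) * (g : M2 k)).trace = (c g * (g : M2 k)).trace := by
    intro i
    refine Rigid_trace_act_mul (g ^ i) (by rw [_root_.map_pow, hdet, one_pow]) _ _ ?_
    rw [Units.val_pow_eq_pow_val, ← pow_succ, ← pow_succ']
  have h3 := congrArg (fun X : M2 k => (X * (g : M2 k)).trace) h1
  simp only [Matrix.zero_mul, Matrix.trace_zero, Finset.sum_mul, Matrix.trace_sum, h2,
    Finset.sum_const, Finset.card_range, nsmul_eq_mul] at h3
  have h4 : ((orderOf g : ℕ) : k) ≠ 0 := by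
    rw [Ne, CharP.cast_eq_zero_iff k p]
    exact not_dvd_orderOf hp2 g hdet htr
  exact (mul_eq_zero.1 h3.symm).resolve_left h4

end Fermat.Agent.S56.T

end
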