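/-
S56 (T) H1, leaf ENTRIES: the entries of a cocycle on `uu x`, `vv y`; cocycle identities; the relation `Ψ = 0`.
-/
import Fermat.Agent.S56.T.H1.Normal
import Fermat.Agent.S56.T.H1.Rigid

set_option autoImplicit false

open Matrix

noncomputable section

namespace Fermat.Agent.S56.T

variable {k : Type*} [Field k]

/-- entries of `c (uu x)` -/
def ua (c : GL (Fin 2) k → M2 k) (x : k) : k := c (uu x) 0 1
/-- entries of `c (uu x)` -/
def ub (c : GL (Fin 2) k → M2 k) (x : k) : k := c (uu x) 0 0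
/-- entries of `c (uu x)` -/
def ug (c : GL (Fin 2) k → M2 k) (x : k) : k := c (uu x) 1 0
/-- entries of `c (vv y)` -/
def va (c : GL (Fin 2) k → M2 k) (y : k) : k := c (vv y) 0 1
/-- entries of `c (vv y)` -/
def vb (c : GL (Fin 2) k → M2 k) (y : k) : k := c (vv y) 0 0
/-- entries of `c (vv y)` -/
def vg (c : GL (Fin 2) k → M2 k) (y : k) : k := c (vv y) 1 0

variable {Γ : Subgroup (GL (Fin 2) k)} {c : GL (Fin 2) k → M2 k}

theorem c_uu_eq (hc : IsCoc Γ c) {x : k} (hx : x ∈ upA Γ) :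
    c (uu x) = !![ub c x, ua c x; ug c x, - ub c x] :=
  eq_of_trace_zero _ (hc.1 _ hx)

theorem c_vv_eq (hc : IsCoc Γ c) {y : k} (hy : y ∈ loA Γ) :
    c (vv y) = !![vb c y, va c y; vg c y, - vb c y] :=
  eq_of_trace_zero _ (hc.1 _ hy)

/-- `uu_add`, `hc.2`, `act_uu`. -/
theorem cocId_up (hc : IsCoc Γ c) : CocId (upA Γ) (ua c) (ub c) (ug c) := by
  have key : ∀ x ∈ upA Γ, ∀ y ∈ upA Γ, c (uu (x + y)) =
      !![ub c x, ua c x; ug c x, - ub c x] +
        !![ub c y + x * ug c y, ua c y - 2 * x * ub c y - x ^ 2 * ug c y; ug c y,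
          -(ub c y + x * ug c y)] := by
    intro x hx y hy
    rw [uu_add, hc.2 _ hx _ hy, c_uu_eq hc hy, act_uu, ← c_uu_eq hc hx]
  refine ⟨fun x hx y hy => ?_, fun x hx y hy => ?_, fun x hx y hy => ?_⟩
  · have h := congrFun (congrFun (key x hx y hy) 1) 0
    simpa [ug] using h
  · have h := congrFun (congrFun (key x hx y hy) 0) 0
    have h2 : ub c (x + y) = ub c x + (ub c y + x * ug c y) := by simpa [ub] using h
    rw [h2]; ring
  · have h := congrFun (congrFun (key x hx y hy) 0) 1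
    have h2 : ua c (x + y) = ua c x + (ua c y - 2 * x * ub c y - x ^ 2 * ug c y) := by
      simpa [ua] using h
    rw [h2]; ring

/-- `vv_add`, `hc.2`, `act_vv`. -/
theorem cocId_lo (hc : IsCoc Γ c) : CocId (loA Γ) (vg c) (fun y => - vb c y) (va c) := by
  have key : ∀ x ∈ loA Γ, ∀ y ∈ loA Γ, c (vv (x + y)) =
      !![vb c x, va c x; vg c x, - vb c x] +
        !![vb c y - x * va c y, va c y; vg c y + 2 * x * vb c y - x ^ 2 * va c y,
          -(vb c y - x * va c y)] := by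
    intro x hx y hy
    rw [vv_add, hc.2 _ hx _ hy, c_vv_eq hc hy, act_vv, ← c_vv_eq hc hx]
  refine ⟨fun x hx y hy => ?_, fun x hx y hy => ?_, fun x hx y hy => ?_⟩
  · have h := congrFun (congrFun (key x hx y hy) 0) 1
    simpa [va] using h
  · have h := congrFun (congrFun (key x hx y hy) 0) 0
    have h2 : vb c (x + y) = vb c x + (vb c y - x * va c y) := by simpa [vb] using h
    show - vb c (x + y) = - vb c x + - vb c y + x * va c y
    rw [h2]; ring
  · have h := congrFun (congrFun (key x hx y hy) 1) 0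
    have h2 : vg c (x + y) = vg c x + (vg c y + 2 * x * vb c y - x ^ 2 * va c y) := by
      simpa [vg] using h
    show vg c (x + y) = vg c x + vg c y - 2 * x * (- vb c y) - x ^ 2 * va c y
    rw [h2]; ring

/-- **The relation** from the rigidity of `g = uu x * vv y` (`tr g = 2 + x y`, `(tr g)² - 4 = x y (x y + 4)`):
`c g = c (uu x) + act (uu x) (c (vv y))`,
`tr (c g * g) = tr (c (uu x) * uu x * vv y) + tr (c (vv y) * vv y * uu x)`. -/
theorem psi_eq_zero [Finite k] {p : ℕ} [Fact p.Prime] [CharP k p] (hp2 : p ≠ 2) (hc : IsCoc Γ c)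
    {x y : k} (hx : x ∈ upA Γ) (hy : y ∈ loA Γ) (h0 : x * y ≠ 0) (h4 : x * y ≠ -4) :
    ub c x * x * y + ua c x * y + ug c x * x - vb c y * x * y + va c y * y + vg c y * x = 0 := by
  have hg : uu x * vv y ∈ Γ := Γ.mul_mem hx hy
  have hdet : Matrix.GeneralLinearGroup.det (uu x * vv y) = 1 := by
    rw [map_mul, det_uu, det_vv, mul_one]
  have hco : ((uu x * vv y : GL (Fin 2) k) : M2 k) = !![1 + x * y, x; y, 1] := by
    rw [Units.val_mul, coe_uu, coe_vv]
    ext i j
    fin_cases i <;> fin_cases j <;> simp [Matrix.mul_apply, Fin.sum_univ_two]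
  have htr : ((uu x * vv y : GL (Fin 2) k) : M2 k).trace ^ 2 ≠ 4 := by
    rw [hco, Matrix.trace_fin_two]
    intro h
    have h1 : x * y * (x * y + 4) = 0 := by
      simp only [Matrix.of_apply, Matrix.cons_val_zero, Matrix.cons_val_one,
        Matrix.cons_val', Matrix.cons_val_fin_one] at h
      linear_combination h
    rcases mul_eq_zero.1 h1 with h2 | h2
    · exact h0 h2
    · exact h4 (by linear_combination h2)
  have h := hc.trace_mul_self hp2 hg hdet htr
  rw [hc.2 _ hx _ hy, c_vv_eq hc hy, act_uu, c_uu_eq hc hx, hco, Matrix.trace_fin_two] at h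
  simp [Matrix.mul_apply, Fin.sum_univ_two] at h
  linear_combination h

/-- The relation in terms of the normal forms (the `b0` terms cancel). -/
theorem psi_nform [Finite k] {p : ℕ} [Fact p.Prime] [CharP k p] (hp2 : p ≠ 2) (hc : IsCoc Γ c)
    {c0 b0 c0' b0' : k} {lam lam' : k → k}
    (hN : NForm (upA Γ) (ua c) (ub c) (ug c) c0 b0 lam) (h3 : p = 3 → c0 = 0)
    (hN' : NForm (loA Γ) (vg c) (fun y => - vb c y) (va c) c0' b0' lam') (h3' : p = 3 → c0' = 0)
    {x y : k} (hx : x ∈ upA Γ) (hy : y ∈ loA Γ) (h0 : x * y ≠ 0) (h4 : x * y ≠ -4) :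
    c0 * (x ^ 3 * y / 6 + x ^ 2) + lam x * y + c0' * (x * y ^ 3 / 6 + y ^ 2) + lam' y * x = 0 := by
  have h := psi_eq_zero hp2 hc hx hy h0 h4
  have e1 := hN.ga_eq x hx
  have e2 := hN.be_eq x hx
  have e3 := hN.al_eq x hx
  have e4 := hN'.ga_eq y hy
  have e5 : - vb c y = c0' * y ^ 2 / 2 + b0' * y := hN'.be_eq y hy
  have e6 := hN'.al_eq y hy
  have e5' : vb c y = - (c0' * y ^ 2 / 2 + b0' * y) := by rw [← e5, neg_neg]
  rw [e1, e2, e3, e4, e5', e6] at h
  have h2 : (2 : k) ≠ 0 := by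
    intro h2
    have h3 : ((2 : ℕ) : k) = 0 := by exact_mod_cast h2
    rw [CharP.cast_eq_zero_iff k p] at h3
    exact hp2 ((Nat.prime_dvd_prime_iff_eq Fact.out Nat.prime_two).1 h3)
  by_cases hp3 : p = 3
  · rw [h3 hp3, h3' hp3] at h ⊢
    simp only [zero_mul, zero_div, neg_zero, zero_add, zero_sub] at h ⊢
    linear_combination h
  · have h3 : (3 : k) ≠ 0 := by
      intro h2
      have h3 : ((3 : ℕ) : k) = 0 := by exact_mod_cast h2
      rw [CharP.cast_eq_zero_iff k p] at h3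
      exact hp3 ((Nat.prime_dvd_prime_iff_eq Fact.out Nat.prime_three).1 h3)
    have h6 : (6 : k) ≠ 0 := by
      have : (6 : k) = 2 * 3 := by norm_num
      rw [this]
      exact mul_ne_zero h2 h3
    field_simp at h ⊢
    linear_combination h

/-- for upper triangular `t = (a b; 0 d) ∈ Γ`: `t (uu x) t⁻¹ = uu ((a/d) x)`, and the `(1,0)` entries of
`c (t * uu x) = c (uu ((a/d) x) * t)` give `ug c ((a/d) x) = d² ug c x`. -/
theorem ug_conj (hc : IsCoc Γ c) {t : GL (Fin 2) k} (ht : t ∈ Γ) (ht0 : (t : M2 k) 1 0 = 0) {x : k}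
    (hx : x ∈ upA Γ) :
    (t : M2 k) 0 0 / (t : M2 k) 1 1 * x ∈ upA Γ ∧
      ug c ((t : M2 k) 0 0 / (t : M2 k) 1 1 * x) = (t : M2 k) 1 1 ^ 2 * ug c x := by
  have hdet : ((Matrix.GeneralLinearGroup.det t : kˣ) : k) = (t : M2 k) 0 0 * (t : M2 k) 1 1 := by
    rw [Matrix.GeneralLinearGroup.val_det_apply, Matrix.det_fin_two, ht0, mul_zero, sub_zero]
  have hdet0 : (t : M2 k) 0 0 * (t : M2 k) 1 1 ≠ 0 := by
    rw [← hdet]
    exact Units.ne_zero _
  have ha : (t : M2 k) 0 0 ≠ 0 := left_ne_zero_of_mul hdet0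
  have hd : (t : M2 k) 1 1 ≠ 0 := right_ne_zero_of_mul hdet0
  have heq : t * uu x = uu ((t : M2 k) 0 0 / (t : M2 k) 1 1 * x) * t := by
    apply Units.ext
    rw [Units.val_mul, Units.val_mul, coe_uu, coe_uu]
    ext i j
    fin_cases i <;> fin_cases j <;> simp [Matrix.mul_apply, Fin.sum_univ_two, ht0]
    field_simp
    ring
  have hmem : uu ((t : M2 k) 0 0 / (t : M2 k) 1 1 * x) ∈ Γ := by
    have h1 : uu ((t : M2 k) 0 0 / (t : M2 k) 1 1 * x) = t * uu x * t⁻¹ := by
      rw [heq, mul_assoc, mul_inv_cancel, mul_one]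
    rw [h1]
    exact Γ.mul_mem (Γ.mul_mem ht hx) (Γ.inv_mem ht)
  refine ⟨hmem, ?_⟩
  have h1 := hc.2 _ ht _ hx
  rw [heq, hc.2 _ hmem _ ht, eq_of_trace_zero _ (hc.1 _ ht), act_uu] at h1
  have h2 := congrFun (congrFun h1 1) 0
  have hY : ((t : M2 k) * c (uu x) * ((t⁻¹ : GL (Fin 2) k) : M2 k)) * (t : M2 k) =
      (t : M2 k) * c (uu x) := by
    rw [Matrix.mul_assoc, ← Units.val_mul, inv_mul_cancel, Units.val_one, Matrix.mul_one]
  have h3 := congrFun (congrFun hY 1) 0
  rw [Matrix.mul_apply, Fin.sum_univ_two, ht0, mul_zero, add_zero,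
    Matrix.mul_apply (M := (t : M2 k)) (N := c (uu x)), Fin.sum_univ_two, ht0, zero_mul,
    zero_add] at h3
  have h4 : (act t (c (uu x))) 1 0 = (t : M2 k) 1 1 ^ 2 * ug c x := by
    rw [act, Matrix.smul_apply, smul_eq_mul, hdet]
    unfold ug
    linear_combination (t : M2 k) 1 1 * h3
  simp only [Matrix.add_apply, Matrix.of_apply, Matrix.cons_val_zero, Matrix.cons_val_one,
    Matrix.cons_val', Matrix.cons_val_fin_one] at h2
  rw [h4] at h2
  unfold ug at h2 ⊢
  linear_combination h2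

end Fermat.Agent.S56.T

end
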