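/-
S56 (T) H1, leaf KEY: the polynomial argument.  Pure algebra.
-/
import Fermat.Agent.S56.T.H1.Defs

set_option autoImplicit false

open Matrix

noncomputable section

namespace Fermat.Agent.S56.T

variable {k : Type*} [Field k]

/-- The hypothesis: the relation `Ψ = 0` for the normal forms. -/
def PsiRel (A A' : AddSubgroup k) (c0 c0' : k) (lam lam' : k → k) : Prop :=
  ∀ x ∈ A, ∀ y ∈ A', x * y ≠ 0 → x * y ≠ -4 →
    c0 * (x ^ 3 * y / 6 + x ^ 2) + lam x * y + c0' * (x * y ^ 3 / 6 + y ^ 2) + lam' y * x = 0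

/-- additive maps commute with multiplication by natural numbers -/
theorem Key_lam_natCast {A : AddSubgroup k} {lam : k → k}
    (hlam : ∀ x ∈ A, ∀ y ∈ A, lam (x + y) = lam x + lam y) {x : k} (hx : x ∈ A) (j : ℕ) :
    (j : k) * x ∈ A ∧ lam ((j : k) * x) = (j : k) * lam x := by
  induction j with
  | zero =>
    have h0 : lam 0 = 0 := by
      have := hlam 0 A.zero_mem 0 A.zero_mem
      rw [add_zero] at this
      exact left_eq_add.mp this
    simp [h0, A.zero_mem]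
  | succ n ih =>
    have e : ((n + 1 : ℕ) : k) * x = (n : k) * x + x := by push_cast; ring
    rw [e]
    refine ⟨A.add_mem ih.1 hx, ?_⟩
    rw [hlam _ ih.1 _ hx, ih.2]
    push_cast; ring

theorem Key_natCast_ne_zero {p : ℕ} [CharP k p] {j : ℕ} (hj0 : 0 < j) (hjp : j < p) :
    (j : k) ≠ 0 := by
  intro h
  rw [CharP.cast_eq_zero_iff k p] at h
  exact absurd (Nat.le_of_dvd hj0 h) (not_le.mpr hjp)

/-- Replacing `x` by `j x`: for `x ∈ A`, `y ∈ A'`, `x y ≠ 0`, the polynomial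
`f = C3 J³ + C2 J² + C1 J + C0`, `C3 = c0 x³ y/6`, `C2 = c0 x²`, `C1 = c0' x y³/6 + lam x y + lam' y x`,
`C0 = c0' y²`, vanishes at `J = j` for all `0 < j < p` with `j x y ≠ -4`.
(`(j : k) * x = j • x ∈ A`, `lam (j • x) = j • lam x` by induction.) -/
theorem PsiRel.eval_eq_zero {p : ℕ} [Fact p.Prime] [CharP k p] {A A' : AddSubgroup k} {c0 c0' : k}
    {lam lam' : k → k} (h : PsiRel A A' c0 c0' lam lam')
    (hlam : ∀ x ∈ A, ∀ y ∈ A, lam (x + y) = lam x + lam y)
    {x y : k} (hx : x ∈ A) (hy : y ∈ A') (hxy : x * y ≠ 0) (j : ℕ) (hj0 : 0 < j) (hjp : j < p)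
    (hj : (j : k) * (x * y) ≠ -4) :
    c0 * x ^ 3 * y / 6 * (j : k) ^ 3 + c0 * x ^ 2 * (j : k) ^ 2
      + (c0' * x * y ^ 3 / 6 + lam x * y + lam' y * x) * (j : k) + c0' * y ^ 2 = 0 := by
  obtain ⟨hm, hl⟩ := Key_lam_natCast hlam hx j
  have hj' : (j : k) ≠ 0 := Key_natCast_ne_zero (p := p) hj0 hjp
  have := h _ hm _ hy (by rw [mul_assoc]; exact mul_ne_zero hj' hxy) (by rw [mul_assoc]; exact hj)
  rw [hl] at this
  rw [← this]
  ring

/-- a polynomial with more roots among the natural numbers `< p` than its degree vanishes -/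
theorem Key_poly_eq_zero {p : ℕ} [CharP k p] (f : Polynomial k) (S : Finset ℕ)
    (hS : ∀ j ∈ S, j < p) (hdeg : f.natDegree < S.card)
    (h : ∀ j ∈ S, f.eval (j : k) = 0) : f = 0 := by
  classical
  have hinj : Set.InjOn ((↑) : ℕ → k) S := fun a ha b hb hab =>
    CharP.natCast_injOn_Iio k p (hS a ha) (hS b hb) hab
  apply Polynomial.eq_zero_of_natDegree_lt_card_of_eval_eq_zero' f (S.image ((↑) : ℕ → k))
  · intro r hr
    obtain ⟨j, hj, rfl⟩ := Finset.mem_image.mp hr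
    exact h j hj
  · rw [Finset.card_image_of_injOn hinj]
    exact hdeg

/-- at most one `j` is excluded -/
theorem Key_card_good {p : ℕ} [CharP k p] (N : ℕ) (hN : N < p) (z : k) (hz : z ≠ 0)
    [DecidablePred (fun j : ℕ => (j : k) * z ≠ -4)] :
    N ≤ ((Finset.Icc 1 N).filter (fun j : ℕ => (j : k) * z ≠ -4)).card + 1 := by
  have h1 : ((Finset.Icc 1 N).filter (fun j : ℕ => ¬ ((j : k) * z ≠ -4))).card ≤ 1 := by
    rw [Finset.card_le_one]
    intro a ha b hb
    rw [Finset.mem_filter, Finset.mem_Icc] at ha hb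
    have ha' : (a : k) * z = -4 := not_not.mp ha.2
    have hb' : (b : k) * z = -4 := not_not.mp hb.2
    have : (a : k) = b := mul_right_cancel₀ hz (ha'.trans hb'.symm)
    exact CharP.natCast_injOn_Iio k p (lt_of_le_of_lt ha.1.2 hN) (lt_of_le_of_lt hb.1.2 hN) this
  have h2 := Finset.card_filter_add_card_filter_not (s := Finset.Icc 1 N)
    (fun j : ℕ => (j : k) * z ≠ -4)
  rw [Nat.card_Icc] at h2
  omega

theorem Key_cubic_of_finset {p : ℕ} [CharP k p] (S : Finset ℕ)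
    (hS : ∀ j ∈ S, j < p) (hcard : 4 ≤ S.card) (C3 C2 C1 C0 : k)
    (h : ∀ j ∈ S, C3 * (j : k) ^ 3 + C2 * (j : k) ^ 2 + C1 * (j : k) + C0 = 0) :
    C3 = 0 ∧ C2 = 0 ∧ C1 = 0 ∧ C0 = 0 := by
  set f : Polynomial k := Polynomial.C C3 * Polynomial.X ^ 3 + Polynomial.C C2 * Polynomial.X ^ 2
    + Polynomial.C C1 * Polynomial.X + Polynomial.C C0 with hf
  have hdeg : f.natDegree ≤ 3 := by rw [hf]; compute_degree
  have h0 : f = 0 := Key_poly_eq_zero (p := p) f S hS (by omega) (by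
    intro j hj
    rw [hf]
    simpa using h j hj)
  have c3 : f.coeff 3 = C3 := by rw [hf]; simp [Polynomial.coeff_X, Polynomial.coeff_C]
  have c2 : f.coeff 2 = C2 := by rw [hf]; simp [Polynomial.coeff_X, Polynomial.coeff_C]
  have c1 : f.coeff 1 = C1 := by rw [hf]; simp [Polynomial.coeff_X, Polynomial.coeff_C]
  have c0 : f.coeff 0 = C0 := by rw [hf]; simp [Polynomial.coeff_X, Polynomial.coeff_C]
  rw [h0] at c3 c2 c1 c0
  simp only [Polynomial.coeff_zero] at c3 c2 c1 c0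
  exact ⟨c3.symm, c2.symm, c1.symm, c0.symm⟩

/-- A polynomial expression of degree `≤ 3` vanishing at `(j : k)` for all `0 < j < p` except possibly one
residue, `p ≥ 7`: all coefficients vanish.  (`Polynomial.eq_zero_of_natDegree_lt_card_of_eval_eq_zero'` or four
explicit good values among `1, …, 5` and linear algebra.) -/
theorem cubic_eq_zero {p : ℕ} [Fact p.Prime] [CharP k p] (hp : 7 ≤ p) (C3 C2 C1 C0 z : k)
    (h : ∀ j : ℕ, 0 < j → j < p → (j : k) * z ≠ -4 →
      C3 * (j : k) ^ 3 + C2 * (j : k) ^ 2 + C1 * (j : k) + C0 = 0) (hz : z ≠ 0) :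
    C3 = 0 ∧ C2 = 0 ∧ C1 = 0 ∧ C0 = 0 := by
  classical
  have hc := Key_card_good (p := p) 5 (by omega) z hz
  refine Key_cubic_of_finset (p := p) ((Finset.Icc 1 5).filter (fun j : ℕ => (j : k) * z ≠ -4))
    ?_ (by omega) C3 C2 C1 C0 ?_
  · intro j hj
    rw [Finset.mem_filter, Finset.mem_Icc] at hj
    omega
  · intro j hj
    rw [Finset.mem_filter, Finset.mem_Icc] at hj
    exact h j (by omega) (by omega) hj.2

/-- `p = 5`: if no `j` is excluded, all coefficients vanish (4 roots). -/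
theorem cubic_eq_zero_five [CharP k 5] (C3 C2 C1 C0 : k)
    (h : ∀ j : ℕ, 0 < j → j < 5 → C3 * (j : k) ^ 3 + C2 * (j : k) ^ 2 + C1 * (j : k) + C0 = 0) :
    C3 = 0 ∧ C2 = 0 ∧ C1 = 0 ∧ C0 = 0 := by
  refine Key_cubic_of_finset (p := 5) (Finset.Icc 1 4) ?_ (by simp) C3 C2 C1 C0 ?_
  · intro j hj
    rw [Finset.mem_Icc] at hj
    omega
  · intro j hj
    rw [Finset.mem_Icc] at hj
    exact h j (by omega) (by omega)

/-- degree `≤ 1`, at most one excluded value, `p ≥ 5`. -/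
theorem Key_linear_eq_zero {p : ℕ} [CharP k p] (hp : 3 ≤ p) (C1 C0 z : k) (hz : z ≠ 0)
    (h : ∀ j : ℕ, 0 < j → j < p → (j : k) * z ≠ -4 → C1 * (j : k) + C0 = 0) :
    (4 ≤ p → C1 = 0 ∧ C0 = 0) ∧ (C0 = 0 → C1 = 0) := by
  classical
  constructor
  · intro hp4
    have hc := Key_card_good (p := p) 3 (by omega) z hz
    set f : Polynomial k := Polynomial.C C1 * Polynomial.X + Polynomial.C C0 with hf
    have hdeg : f.natDegree ≤ 1 := by rw [hf]; compute_degree
    have h0 : f = 0 := Key_poly_eq_zero (p := p) f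
      ((Finset.Icc 1 3).filter (fun j : ℕ => (j : k) * z ≠ -4)) (by
        intro j hj
        rw [Finset.mem_filter, Finset.mem_Icc] at hj
        omega) (by omega) (by
        intro j hj
        rw [Finset.mem_filter, Finset.mem_Icc] at hj
        rw [hf]
        simpa using h j (by omega) (by omega) hj.2)
    have c1 : f.coeff 1 = C1 := by rw [hf]; simp [Polynomial.coeff_X, Polynomial.coeff_C]
    have c0 : f.coeff 0 = C0 := by rw [hf]; simp [Polynomial.coeff_X, Polynomial.coeff_C]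
    rw [h0] at c1 c0
    simp only [Polynomial.coeff_zero] at c1 c0
    exact ⟨c1.symm, c0.symm⟩
  · intro hC0
    have hc := Key_card_good (p := p) 2 (by omega) z hz
    have hpos : 0 < ((Finset.Icc 1 2).filter (fun j : ℕ => (j : k) * z ≠ -4)).card := by omega
    obtain ⟨j, hj⟩ := Finset.card_pos.mp hpos
    rw [Finset.mem_filter, Finset.mem_Icc] at hj
    have := h j (by omega) (by omega) hj.2
    rw [hC0, add_zero] at this
    exact (mul_eq_zero.mp this).resolve_right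
      (Key_natCast_ne_zero (p := p) (by omega) (by omega))

/-- `p = 5`, degree `≤ 1`, at most one excluded value. -/
theorem linear_eq_zero_five [CharP k 5] (C1 C0 z : k) (hz : z ≠ 0)
    (h : ∀ j : ℕ, 0 < j → j < 5 → (j : k) * z ≠ -4 → C1 * (j : k) + C0 = 0) :
    C1 = 0 ∧ C0 = 0 :=
  (Key_linear_eq_zero (p := 5) (by omega) C1 C0 z hz h).1 (by omega)

/-- **Key.** -/
theorem key {p : ℕ} [Fact p.Prime] [CharP k p] (hp2 : p ≠ 2) {A A' : AddSubgroup k} {c0 c0' : k}
    {lam lam' : k → k} (h : PsiRel A A' c0 c0' lam lam')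
    (hlam : ∀ x ∈ A, ∀ y ∈ A, lam (x + y) = lam x + lam y)
    (h3 : p = 3 → c0 = 0 ∧ c0' = 0) (h5 : p = 5 → ∀ x ∈ A, c0 * x = 0)
    {y₁ : k} (hy₁ : y₁ ∈ A') (hy₁0 : y₁ ≠ 0) :
    (∀ x ∈ A, c0 * x = 0) ∧ ∃ δ : k, ∀ x ∈ A, lam x = δ * x := by
  have hpp : p.Prime := Fact.out
  have hp3 : 3 ≤ p := by
    have := hpp.two_le
    omega
  -- the main claim for nonzero `x`
  have main : ∀ x ∈ A, x ≠ 0 → c0 * x = 0 ∧ lam x * y₁ + lam' y₁ * x = 0 := by
    intro x hx hx0
    have hxy : x * y₁ ≠ 0 := mul_ne_zero hx0 hy₁0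
    have ev := fun j hj0 hjp hj => h.eval_eq_zero (p := p) hlam hx hy₁ hxy j hj0 hjp hj
    by_cases e3 : p = 3
    · obtain ⟨rfl, rfl⟩ := h3 e3
      refine ⟨by simp, ?_⟩
      have := (Key_linear_eq_zero (p := p) hp3 (lam x * y₁ + lam' y₁ * x) 0 (x * y₁) hxy (by
        intro j hj0 hjp hj
        have := ev j hj0 hjp hj
        simpa using this)).2 rfl
      exact this
    by_cases e5 : p = 5
    · have hc0 : c0 = 0 := (mul_eq_zero.mp (h5 e5 x hx)).resolve_right hx0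
      subst hc0
      refine ⟨by simp, ?_⟩
      have := (Key_linear_eq_zero (p := p) hp3 (c0' * x * y₁ ^ 3 / 6 + lam x * y₁ + lam' y₁ * x)
        (c0' * y₁ ^ 2) (x * y₁) hxy (by
        intro j hj0 hjp hj
        have := ev j hj0 hjp hj
        simpa using this)).1 (by omega)
      have hc0' : c0' = 0 := (mul_eq_zero.mp this.2).resolve_right (pow_ne_zero 2 hy₁0)
      have h1 := this.1
      rw [hc0'] at h1
      simpa using h1
    · have hp7 : 7 ≤ p := by
        have h4 : p ≠ 4 := by rintro rfl; exact absurd hpp (by norm_num)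
        have h6 : p ≠ 6 := by rintro rfl; exact absurd hpp (by norm_num)
        omega
      obtain ⟨-, hC2, hC1, hC0⟩ := cubic_eq_zero (p := p) hp7 _ _ _ _ (x * y₁) ev hxy
      have hc0 : c0 = 0 := (mul_eq_zero.mp hC2).resolve_right (pow_ne_zero 2 hx0)
      have hc0' : c0' = 0 := (mul_eq_zero.mp hC0).resolve_right (pow_ne_zero 2 hy₁0)
      refine ⟨by simp [hc0], ?_⟩
      rw [hc0'] at hC1
      simpa using hC1
  have hl0 : lam 0 = 0 := by
    have := (Key_lam_natCast hlam A.zero_mem 0).2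
    simpa using this
  refine ⟨?_, -(lam' y₁ / y₁), ?_⟩
  · intro x hx
    by_cases hx0 : x = 0
    · simp [hx0]
    · exact (main x hx hx0).1
  · intro x hx
    by_cases hx0 : x = 0
    · simp [hx0, hl0]
    · have := (main x hx hx0).2
      field_simp
      linear_combination this

/-- `p = 5`, `c0 x ≠ 0` for some `x ∈ A`: then `x y ∈ 𝔽₅^×` for all nonzero `x ∈ A`, `y ∈ A'`. -/
theorem key_five [CharP k 5] {A A' : AddSubgroup k} {c0 c0' : k}
    {lam lam' : k → k} (h : PsiRel A A' c0 c0' lam lam')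
    (hlam : ∀ x ∈ A, ∀ y ∈ A, lam (x + y) = lam x + lam y) (hc0 : c0 ≠ 0)
    {x y : k} (hx : x ∈ A) (hy : y ∈ A') (hx0 : x ≠ 0) (hy0 : y ≠ 0) :
    ∃ j : ℕ, 0 < j ∧ j < 5 ∧ (j : k) * (x * y) = -4 := by
  by_contra hcon
  have : Fact (Nat.Prime 5) := ⟨by norm_num⟩
  have hxy : x * y ≠ 0 := mul_ne_zero hx0 hy0
  obtain ⟨-, hC2, -, -⟩ := cubic_eq_zero_five _ _ _ _ (fun j hj0 hjp =>
    h.eval_eq_zero (p := 5) hlam hx hy hxy j hj0 hjp (fun e => hcon ⟨j, hj0, hjp, e⟩))
  exact (mul_ne_zero hc0 (pow_ne_zero 2 hx0)) hC2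

end Fermat.Agent.S56.T

end
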