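/-
S56 (T) H1, leaf FIVE: the exceptional class for `p = 5` is killed by the determinant.
-/
import Fermat.Agent.S56.T.H1.Entries
import Fermat.Agent.S56.T.H1.Key

set_option autoImplicit false

open Matrix

noncomputable section

namespace Fermat.Agent.S56.T

variable {k : Type*} [Field k]

/-- `p = 5`.  Suppose `ug c x = c0 x` on `A = upA Γ`, `x y ∈ 𝔽₅^×` for all nonzero `x ∈ A`, `y ∈ A' = loA Γ`, both
`A, A' ≠ 0`, and `Γ` contains an upper triangular `t = (a b; 0 d)` with `det t = 2`.  Then `c0 = 0`.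
PROOF.  `r := a/d`; by `ug_conj`, `r x₁ ∈ A` and `c0 r x₁ = d² c0 x₁`.  If `c0 ≠ 0`: `r = d²`, `det t = a d = r d² = r²`.
`j (x₁ y₁) = -4`, `j' (r x₁ y₁) = -4` with `0 < j, j' < 5`, so `r = j / j'` is in the prime field: `r = i` for some
`0 < i < 5` (`decide`-like case analysis on `j, j'`), and `i² ∈ {1, 4}` is never `2` in characteristic `5`. -/
theorem c0_eq_zero_five [CharP k 5] {Γ : Subgroup (GL (Fin 2) k)} {c : GL (Fin 2) k → M2 k}
    (hc : IsCoc Γ c) {c0 : k} (hga : ∀ x ∈ upA Γ, ug c x = c0 * x)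
    {x₁ y₁ : k} (hx₁ : x₁ ∈ upA Γ) (hx₁0 : x₁ ≠ 0) (hy₁ : y₁ ∈ loA Γ) (hy₁0 : y₁ ≠ 0)
    (hF : ∀ x ∈ upA Γ, ∀ y ∈ loA Γ, x ≠ 0 → y ≠ 0 → ∃ j : ℕ, 0 < j ∧ j < 5 ∧ (j : k) * (x * y) = -4)
    {t : GL (Fin 2) k} (ht : t ∈ Γ) (ht0 : (t : M2 k) 1 0 = 0) (hdet : (t : M2 k).det = 2) :
    c0 = 0 := by
  by_contra hc0
  have h2 : (2 : k) ≠ 0 := by
    intro h
    have h1 : ((2 : ℕ) : k) = 0 := by exact_mod_cast h
    rw [CharP.cast_eq_zero_iff k 5] at h1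
    omega
  rw [Matrix.det_fin_two, ht0, mul_zero, sub_zero] at hdet
  have ha : (t : M2 k) 0 0 ≠ 0 := by
    intro h
    rw [h, zero_mul] at hdet
    exact h2 hdet.symm
  have hd : (t : M2 k) 1 1 ≠ 0 := by
    intro h
    rw [h, mul_zero] at hdet
    exact h2 hdet.symm
  obtain ⟨hr, hug⟩ := ug_conj hc ht ht0 hx₁
  rw [hga _ hr, hga _ hx₁] at hug
  set a := (t : M2 k) 0 0
  set d := (t : M2 k) 1 1
  have hrd : a / d = d ^ 2 := by
    have h3 : c0 * x₁ * (a / d) = c0 * x₁ * d ^ 2 := by linear_combination hug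
    exact mul_left_cancel₀ (mul_ne_zero hc0 hx₁0) h3
  have hr2 : (a / d) ^ 2 = 2 := by
    have h3 : a = d ^ 2 * d := by
      rw [← hrd]
      field_simp
    rw [hrd, ← hdet, h3]
    ring
  have hr0 : a / d ≠ 0 := div_ne_zero ha hd
  obtain ⟨j, hj0, hj5, hj⟩ := hF _ hx₁ _ hy₁ hx₁0 hy₁0
  obtain ⟨j', hj'0, hj'5, hj'⟩ := hF _ hr _ hy₁ (mul_ne_zero hr0 hx₁0) hy₁0
  have h4 : (j' : k) * (a / d) = j := by
    have h5 : x₁ * y₁ * ((j' : k) * (a / d)) = x₁ * y₁ * j := by linear_combination hj' - hj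
    exact mul_left_cancel₀ (mul_ne_zero hx₁0 hy₁0) h5
  have h5 : ((2 * j' ^ 2 : ℕ) : k) = ((j ^ 2 : ℕ) : k) := by
    push_cast
    rw [← h4, mul_pow, hr2]
    ring
  rw [CharP.natCast_eq_natCast k 5] at h5
  interval_cases j <;> interval_cases j' <;> exact absurd h5 (by decide)

end Fermat.Agent.S56.T

end
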