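/-
S56 (T) H1, CORE: in standard position the restriction of a cocycle to the upper unipotent subgroup is a coboundary.
-/
import Fermat.Agent.S56.T.H1.Five

set_option autoImplicit false

open Matrix

noncomputable section

namespace Fermat.Agent.S56.T

variable {k : Type*} [Field k]

/-- **Core.**  `Γ` contains a nontrivial lower unipotent element (and, if `p = 5`, an upper triangular element of
determinant `2`).  Then every cocycle on `Γ` is a coboundary on `upU Γ`.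
PROOF.  `cocId_up`, `cocId_lo`, `CocId.exists_nform` (twice), `psi_nform` gives `PsiRel`; `p = 5`: `key_five` +
`c0_eq_zero_five`; `key`: `c0 x = 0` and `lam x = δ x` on `A`.  So
`c (uu x) = !![b0 x, - b0 x² + δ x; 0, - b0 x] = act (uu x) X - X` with `X = !![-δ/2, 0; b0, δ/2]` (`act_uu`). -/
theorem core [Finite k] {p : ℕ} [Fact p.Prime] [CharP k p] (hp2 : p ≠ 2)
    (Γ : Subgroup (GL (Fin 2) k)) (c : GL (Fin 2) k → M2 k) (hc : IsCoc Γ c)
    (hy : ∃ y : k, y ≠ 0 ∧ vv y ∈ Γ)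
    (h5 : p = 5 → ∃ t ∈ Γ, (t : M2 k) 1 0 = 0 ∧ (t : M2 k).det = 2) : IsCob (upU Γ) c := by
  obtain ⟨y₁, hy₁0, hy₁⟩ := hy
  obtain ⟨c0, b0, lam, hN, h3⟩ := (cocId_up hc).exists_nform (p := p) hp2
  obtain ⟨c0', b0', lam', hN', h3'⟩ := (cocId_lo hc).exists_nform (p := p) hp2
  have hPsi : PsiRel (upA Γ) (loA Γ) c0 c0' lam lam' := fun x hx y hy h0 h4 =>
    psi_nform hp2 hc hN h3 hN' h3' hx hy h0 h4
  have h5' : p = 5 → ∀ x ∈ upA Γ, c0 * x = 0 := by
    intro hp5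
    subst hp5
    intro x hx
    by_contra hcx
    have hc0 : c0 ≠ 0 := fun h => hcx (by rw [h, zero_mul])
    have hx0 : x ≠ 0 := fun h => hcx (by rw [h, mul_zero])
    obtain ⟨t, ht, ht0, hdet⟩ := h5 rfl
    exact hc0 (c0_eq_zero_five hc hN.ga_eq hx hx0 hy₁ hy₁0
      (fun x' hx' y' hy' hx'0 hy'0 => key_five hPsi hN.lam_add hc0 hx' hy' hx'0 hy'0) ht ht0 hdet)
  obtain ⟨hc0x, δ, hδ⟩ := key hp2 hPsi hN.lam_add (fun h => ⟨h3 h, h3' h⟩) h5' hy₁ hy₁0
  have h2 : (2 : k) ≠ 0 := by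
    intro h
    have h1 : ((2 : ℕ) : k) = 0 := by exact_mod_cast h
    rw [CharP.cast_eq_zero_iff k p] at h1
    exact hp2 ((Nat.prime_dvd_prime_iff_eq Fact.out Nat.prime_two).1 h1)
  refine ⟨!![-δ / 2, 0; b0, -(-δ / 2)], by simp [Matrix.trace_fin_two], ?_⟩
  rintro _ ⟨hg, x, rfl⟩
  have hx : x ∈ upA Γ := hg
  rw [act_uu, c_uu_eq hc hx, hN.ga_eq x hx, hN.be_eq x hx, hN.al_eq x hx, hδ x hx]
  have e1 : c0 * x ^ 2 = 0 := by rw [pow_two, ← mul_assoc, hc0x x hx, zero_mul]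
  have e2 : c0 * x ^ 3 = 0 := by rw [pow_succ, ← mul_assoc, e1, zero_mul]
  rw [e1, e2, hc0x x hx]
  ext i j
  fin_cases i <;> fin_cases j <;> simp <;> field_simp <;> ring

end Fermat.Agent.S56.T

end
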