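/-
S56 (T) H1, leaf FIX: fixed vectors of `p`-groups, change of basis, unipotent matrices.
-/
import Fermat.Agent.S56.T.H1.Defs

set_option autoImplicit false

open Matrix

noncomputable section

namespace Fermat.Agent.S56.T

variable {k : Type*} [Field k]

/-- the natural action of a subgroup of `GL₂(k)` on `k²`. -/
@[instance_reducible] def Fix_action (P : Subgroup (GL (Fin 2) k)) : MulAction P (Fin 2 → k) where
  smul h v := ((h : GL (Fin 2) k) : M2 k) *ᵥ v
  one_smul v := by
    show (((1 : P) : GL (Fin 2) k) : M2 k) *ᵥ v = v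
    simp
  mul_smul g h v := by
    show (((g * h : P) : GL (Fin 2) k) : M2 k) *ᵥ v
      = ((g : GL (Fin 2) k) : M2 k) *ᵥ (((h : GL (Fin 2) k) : M2 k) *ᵥ v)
    rw [Matrix.mulVec_mulVec, Subgroup.coe_mul, Units.val_mul]

/-- (PO2) A `p`-subgroup of `GL₂(k)` fixes a nonzero vector.
PROOF.  `P` acts on the finite set `{v : Fin 2 → k // v ≠ 0}` of cardinality `#k² - 1`, prime to `p`:
`IsPGroup.nonempty_fixed_point_of_prime_not_dvd_card`.  (Alternative: induction/commuting unipotents.) -/
theorem exists_fixed_vector [Finite k] {p : ℕ} [Fact p.Prime] [CharP k p]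
    (P : Subgroup (GL (Fin 2) k)) (hP : IsPGroup p P) :
    ∃ v : Fin 2 → k, v ≠ 0 ∧ ∀ h ∈ P, (h : M2 k) *ᵥ v = v := by
  classical
  letI := Fix_action P
  have : Fintype k := Fintype.ofFinite k
  have hpk : p ∣ Nat.card k := by
    rw [Nat.card_eq_fintype_card]
    exact (CharP.cast_eq_zero_iff k p _).1 (Nat.cast_card_eq_zero k)
  have hcard : p ∣ Nat.card (Fin 2 → k) := by
    rw [Nat.card_fun]
    simpa using Dvd.dvd.pow hpk (two_ne_zero)
  have h0 : (0 : Fin 2 → k) ∈ MulAction.fixedPoints P (Fin 2 → k) := by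
    intro h
    show ((h : GL (Fin 2) k) : M2 k) *ᵥ (0 : Fin 2 → k) = 0
    simp
  obtain ⟨v, hv, hne⟩ := hP.exists_fixed_point_of_prime_dvd_card_of_fixed_point _ hcard h0
  exact ⟨v, hne.symm, fun h hh => hv ⟨h, hh⟩⟩

/-- (PO3) change of basis: for linearly independent `v, w` there is `s ∈ GL₂(k)` with `s v = e₁`, `s w = e₂`. -/
theorem exists_basis_change (v w : Fin 2 → k) (h : ∀ a b : k, a • v + b • w = 0 → a = 0 ∧ b = 0) :
    ∃ s : GL (Fin 2) k, (s : M2 k) *ᵥ v = ![1, 0] ∧ (s : M2 k) *ᵥ w = ![0, 1] := by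
  have hd : v 0 * w 1 - w 0 * v 1 ≠ 0 := by
    intro hd
    have h1 := h (w 1) (-v 1) (by
      funext i
      fin_cases i
      · simp only [Fin.zero_eta, Pi.add_apply, Pi.smul_apply, smul_eq_mul, Pi.zero_apply]
        linear_combination hd
      · simp only [Fin.mk_one, Pi.add_apply, Pi.smul_apply, smul_eq_mul, Pi.zero_apply]
        ring)
    have h2 := h (w 0) (-v 0) (by
      funext i
      fin_cases i
      · simp only [Fin.zero_eta, Pi.add_apply, Pi.smul_apply, smul_eq_mul, Pi.zero_apply]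
        ring
      · simp only [Fin.mk_one, Pi.add_apply, Pi.smul_apply, smul_eq_mul, Pi.zero_apply]
        linear_combination -hd)
    have hv : v = 0 := by
      funext i
      fin_cases i
      · simpa using h2.2
      · simpa using h1.2
    have h3 := h 1 0 (by rw [hv]; simp)
    exact one_ne_zero h3.1
  set d := v 0 * w 1 - w 0 * v 1 with hdd
  refine ⟨Matrix.GeneralLinearGroup.mkOfDetNeZero !![w 1 / d, -w 0 / d; -v 1 / d, v 0 / d] ?_,
    ?_, ?_⟩
  · rw [Matrix.det_fin_two_of]
    have e : w 1 / d * (v 0 / d) - -w 0 / d * (-v 1 / d) = 1 / d := by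
      field_simp
      rw [hdd]
      ring
    rw [e]
    exact one_div_ne_zero hd
  · show !![w 1 / d, -w 0 / d; -v 1 / d, v 0 / d] *ᵥ v = ![1, 0]
    funext i
    fin_cases i
    · simp only [Fin.zero_eta, Matrix.mulVec, dotProduct, Fin.sum_univ_two, Matrix.of_apply,
        Matrix.cons_val_zero, Matrix.cons_val_one]
      field_simp
      rw [hdd]
      ring
    · simp only [Fin.mk_one, Matrix.mulVec, dotProduct, Fin.sum_univ_two, Matrix.of_apply,
        Matrix.cons_val_zero, Matrix.cons_val_one]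
      field_simp
      ring
  · show !![w 1 / d, -w 0 / d; -v 1 / d, v 0 / d] *ᵥ w = ![0, 1]
    funext i
    fin_cases i
    · simp only [Fin.zero_eta, Matrix.mulVec, dotProduct, Fin.sum_univ_two, Matrix.of_apply,
        Matrix.cons_val_zero, Matrix.cons_val_one]
      field_simp
      ring
    · simp only [Fin.mk_one, Matrix.mulVec, dotProduct, Fin.sum_univ_two, Matrix.of_apply,
        Matrix.cons_val_zero, Matrix.cons_val_one]
      field_simp
      rw [hdd]
      ring

/-- (PO4) `det h = 1`, `h e₁ = e₁`  ⟹  `h = uu x`. -/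
theorem eq_uu_of_fix (h : GL (Fin 2) k) (hdet : Matrix.GeneralLinearGroup.det h = 1)
    (hfix : (h : M2 k) *ᵥ ![1, 0] = ![1, 0]) : ∃ x, h = uu x := by
  have h00 : (h : M2 k) 0 0 = 1 := by
    have := congrFun hfix 0
    simpa [Matrix.mulVec, dotProduct, Fin.sum_univ_two] using this
  have h10 : (h : M2 k) 1 0 = 0 := by
    have := congrFun hfix 1
    simpa [Matrix.mulVec, dotProduct, Fin.sum_univ_two] using this
  have hd : (h : M2 k).det = 1 := by
    rw [← Matrix.GeneralLinearGroup.val_det_apply, hdet, Units.val_one]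
  rw [Matrix.det_fin_two, h00, h10, mul_zero, sub_zero, one_mul] at hd
  refine ⟨(h : M2 k) 0 1, Units.ext ?_⟩
  rw [coe_uu]
  ext i j
  fin_cases i <;> fin_cases j <;> simp [h00, h10, hd]

/-- (PO5) `det h = 1`, `h e₂ = e₂`  ⟹  `h = vv y`. -/
theorem eq_vv_of_fix (h : GL (Fin 2) k) (hdet : Matrix.GeneralLinearGroup.det h = 1)
    (hfix : (h : M2 k) *ᵥ ![0, 1] = ![0, 1]) : ∃ y, h = vv y := by
  have h01 : (h : M2 k) 0 1 = 0 := by
    have := congrFun hfix 0
    simpa [Matrix.mulVec, dotProduct, Fin.sum_univ_two] using this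
  have h11 : (h : M2 k) 1 1 = 1 := by
    have := congrFun hfix 1
    simpa [Matrix.mulVec, dotProduct, Fin.sum_univ_two] using this
  have hd : (h : M2 k).det = 1 := by
    rw [← Matrix.GeneralLinearGroup.val_det_apply, hdet, Units.val_one]
  rw [Matrix.det_fin_two, h01, h11, zero_mul, sub_zero, mul_one] at hd
  refine ⟨(h : M2 k) 1 0, Units.ext ?_⟩
  rw [coe_vv]
  ext i j
  fin_cases i <;> fin_cases j <;> simp [h01, h11, hd]

end Fermat.Agent.S56.T

end
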