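/-
S56 (T) H1, leaf FRATTINI: a Sylow subgroup of `Γ ∩ SL₂` and the Frattini argument.
-/
import Fermat.Agent.S56.T.H1.Defs

set_option autoImplicit false

open Matrix

noncomputable section

namespace Fermat.Agent.S56.T

variable {k : Type*} [Field k]

/-- the subgroup `Γ ∩ SL₂`. -/
def slPart (Γ : Subgroup (GL (Fin 2) k)) : Subgroup (GL (Fin 2) k) :=
  Γ ⊓ (Matrix.GeneralLinearGroup.det : GL (Fin 2) k →* kˣ).ker

theorem Frattini_not_dvd_card_units [Finite k] {p : ℕ} [Fact p.Prime] [CharP k p] :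
    ¬ p ∣ Nat.card kˣ := by
  classical
  have := Fintype.ofFinite k
  rw [Nat.card_eq_fintype_card, Fintype.card_units]
  obtain ⟨n, hp, hn⟩ := FiniteField.card k p
  intro h
  have h1 : p ∣ Fintype.card k := by
    rw [hn]
    exact dvd_pow_self p n.ne_zero
  have h2 : 1 ≤ Fintype.card k := Fintype.card_pos
  have h3 : p ∣ 1 := by
    have h4 := Nat.dvd_sub h1 h
    rwa [Nat.sub_sub_self h2] at h4
  exact hp.one_lt.ne' (Nat.dvd_one.1 h3)

/-- the abstract Frattini argument for the kernel of a homomorphism to a group of order prime to `p`. -/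
theorem Frattini_abstract {G A : Type*} [Group G] [Finite G] [Group A] {p : ℕ} [Fact p.Prime]
    (φ : G →* A) (hA : ¬ p ∣ Nat.card A) :
    ∃ Q : Subgroup G, Q ≤ φ.ker ∧ IsPGroup p Q ∧ ¬ p ∣ Q.index ∧
      ∀ g : G, ∃ t : G, (∀ h, h ∈ Q ↔ t * h * t⁻¹ ∈ Q) ∧ φ t = φ g := by
  obtain ⟨P₀⟩ : Nonempty (Sylow p φ.ker) := inferInstance
  refine ⟨(P₀ : Subgroup φ.ker).map φ.ker.subtype, ?_, ?_, ?_, ?_⟩
  · rintro _ ⟨n, -, rfl⟩
    exact n.2
  · exact P₀.2.map φ.ker.subtype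
  · rw [Subgroup.index_map_subtype]
    intro h
    rcases (Nat.Prime.dvd_mul Fact.out).1 h with h | h
    · exact P₀.not_dvd_index h
    · have h1 : φ.ker.index ∣ Nat.card A := by
        rw [Subgroup.index_ker]
        exact Subgroup.card_subgroup_dvd_card _
      exact hA (h.trans h1)
  · intro g
    have htop := Sylow.normalizer_sup_eq_top P₀
    have hg : g ∈ (Subgroup.normalizer ((P₀ : Subgroup φ.ker).map φ.ker.subtype : Set G) ⊔ φ.ker :
        Subgroup G) := by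
      rw [htop]
      trivial
    rw [← SetLike.mem_coe, Subgroup.mul_normal] at hg
    obtain ⟨t, ht, n, hn, htn⟩ := Set.mem_mul.1 hg
    refine ⟨t, Subgroup.mem_normalizer_iff.1 ht, ?_⟩
    have hn1 : φ n = 1 := hn
    rw [← htn, map_mul, hn1, mul_one]

/-- (PO1) There is a `p`-subgroup `P ≤ Γ ∩ SL₂` of index prime to `p` in `Γ` such that every determinant of `Γ` is the
determinant of an element of `Γ` normalising `P` (**Frattini**).
PROOF.  `G := ↥Γ`, `N := ker (det ∘ Γ.subtype) : Subgroup G` (normal, index dividing `#kˣ`, prime to `p`),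
`P₀ : Sylow p ↥N`, `Q := (P₀ : Subgroup N).map N.subtype`, `P := Q.map Γ.subtype`.
`Sylow.normalizer_sup_eq_top P₀ : Q.normalizer ⊔ N = ⊤`, so every `g : G` is `t * n`, `t ∈ Q.normalizer`, `n ∈ N`
(`Subgroup.mem_sup`).  Index: `Subgroup.relIndex_mul_relIndex`/`index_map`..., `P₀.not_dvd_index`. -/
theorem exists_sylow_frattini [Finite k] {p : ℕ} [Fact p.Prime] [CharP k p]
    (Γ : Subgroup (GL (Fin 2) k)) :
    ∃ P : Subgroup (GL (Fin 2) k), P ≤ slPart Γ ∧ IsPGroup p P ∧ ¬ p ∣ P.relIndex Γ ∧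
      ∀ g ∈ Γ, ∃ t ∈ Γ, (∀ h, h ∈ P ↔ t * h * t⁻¹ ∈ P) ∧
        Matrix.GeneralLinearGroup.det t = Matrix.GeneralLinearGroup.det g := by
  obtain ⟨Q, hQN, hQp, hQi, hQt⟩ := Frattini_abstract (p := p)
    ((Matrix.GeneralLinearGroup.det : GL (Fin 2) k →* kˣ).comp Γ.subtype)
    Frattini_not_dvd_card_units
  refine ⟨Q.map Γ.subtype, ?_, hQp.map Γ.subtype, ?_, ?_⟩
  · rintro _ ⟨q, hq, rfl⟩
    exact ⟨q.2, hQN hq⟩
  · rw [Subgroup.relIndex, Subgroup.subgroupOf,
      Subgroup.comap_map_eq_self_of_injective Γ.subtype_injective]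
    exact hQi
  · intro g hg
    obtain ⟨t, ht, hdet⟩ := hQt ⟨g, hg⟩
    refine ⟨t, t.2, fun h => ⟨?_, ?_⟩, hdet⟩
    · rintro ⟨q, hq, rfl⟩
      exact ⟨t * q * t⁻¹, (ht q).1 hq, rfl⟩
    · rintro ⟨q, hq, hqh⟩
      refine ⟨t⁻¹ * q * t, (ht _).2 ?_, ?_⟩
      · have h1 : t * (t⁻¹ * q * t) * t⁻¹ = q := by group
        rw [h1]
        exact hq
      · have h2 : (q : GL (Fin 2) k) = (t : GL (Fin 2) k) * h * (t : GL (Fin 2) k)⁻¹ := hqh
        show (t : GL (Fin 2) k)⁻¹ * (q : GL (Fin 2) k) * (t : GL (Fin 2) k) = h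
        rw [h2]
        group

end Fermat.Agent.S56.T

end
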