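/-
S56 (T) H1, leaf POSITION: standard position of an irreducible subgroup of order divisible by `p`.
-/
import Fermat.Agent.S56.T.H1.Frattini
import Fermat.Agent.S56.T.H1.Fix

set_option autoImplicit false

open Matrix

noncomputable section

namespace Fermat.Agent.S56.T

variable {k : Type*} [Field k]

theorem Position_mul_mulVec (a b : GL (Fin 2) k) (v : Fin 2 → k) :
    ((a * b : GL (Fin 2) k) : M2 k) *ᵥ v = (a : M2 k) *ᵥ ((b : M2 k) *ᵥ v) := by
  rw [Units.val_mul, Matrix.mulVec_mulVec]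

theorem Position_inv_mulVec (a : GL (Fin 2) k) (v : Fin 2 → k) :
    ((a⁻¹ : GL (Fin 2) k) : M2 k) *ᵥ ((a : M2 k) *ᵥ v) = v := by
  rw [← Position_mul_mulVec, inv_mul_cancel, Units.val_one, Matrix.one_mulVec]

theorem Position_conj_fix (s h : GL (Fin 2) k) (v : Fin 2 → k) (hv : (h : M2 k) *ᵥ v = v) :
    ((s * h * s⁻¹ : GL (Fin 2) k) : M2 k) *ᵥ ((s : M2 k) *ᵥ v) = (s : M2 k) *ᵥ v := by
  rw [Position_mul_mulVec, Position_mul_mulVec, Position_inv_mulVec, hv]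

theorem Position_det_conj (s h : GL (Fin 2) k) :
    Matrix.GeneralLinearGroup.det (s * h * s⁻¹) = Matrix.GeneralLinearGroup.det h := by
  rw [map_mul, map_mul, map_inv, mul_right_comm, mul_inv_cancel, one_mul]

theorem Position_conj_mem {s h : GL (Fin 2) k} {Γ : Subgroup (GL (Fin 2) k)} (hh : h ∈ Γ) :
    s * h * s⁻¹ ∈ conjSub s Γ := by
  rw [mem_conjSub]
  have e : s⁻¹ * (s * h * s⁻¹) * s = h := by group
  rwa [e]

/-- **Standard position.**
PROOF.  `P` from (PO1); `P ≠ ⊥` because `p ∣ #Γ` and `p ∤ [Γ:P]`; `e₁` from (PO2); `g₀ ∈ Γ` with `g₀ e₁ ∉ k e₁`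
(`hirr`); `s` from (PO3) for `(e₁, g₀ e₁)`.  `s P s⁻¹ ≤ upU (s Γ s⁻¹)` by (PO4), so the index of `upU` divides that
of `s P s⁻¹` (`Subgroup.relIndex_dvd_of_le_left`).  `s g₀ P g₀⁻¹ s⁻¹` consists of `vv y` (PO5), and is nontrivial.
If `t` normalises `P` then `t e₁` is fixed by `P`; the fixed space of a nontrivial `uu x` is the line `k e₁`; so
`s t s⁻¹` is upper triangular. -/
theorem position [Finite k] {p : ℕ} [Fact p.Prime] [CharP k p]
    (Γ : Subgroup (GL (Fin 2) k))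
    (hirr : ∀ v : Fin 2 → k, v ≠ 0 → ∃ g ∈ Γ, ∀ c : k, (g : M2 k) *ᵥ v ≠ c • v)
    (hp : p ∣ Nat.card Γ) :
    ∃ s : GL (Fin 2) k, ¬ p ∣ (upU (conjSub s Γ)).relIndex (conjSub s Γ) ∧
      (∃ y : k, y ≠ 0 ∧ vv y ∈ conjSub s Γ) ∧
      ∀ g ∈ Γ, ∃ t ∈ conjSub s Γ, (t : M2 k) 1 0 = 0 ∧ (t : M2 k).det = (g : M2 k).det := by
  obtain ⟨P, hPsl, hPp, hPidx, hfrat⟩ := exists_sylow_frattini (p := p) Γ
  have hPΓ : P ≤ Γ := fun h hh => (hPsl hh).1
  have hPdet : ∀ h ∈ P, Matrix.GeneralLinearGroup.det h = 1 := fun h hh => (hPsl hh).2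
  -- `P` is nontrivial
  obtain ⟨h₀, hh₀P, hh₀1⟩ : ∃ h ∈ P, h ≠ 1 := by
    by_contra hcon
    push Not at hcon
    have hbot : P = ⊥ := (Subgroup.eq_bot_iff_forall P).2 hcon
    rw [hbot, Subgroup.relIndex_bot_left] at hPidx
    exact hPidx hp
  obtain ⟨e₁, he₁0, he₁fix⟩ := exists_fixed_vector P hPp
  obtain ⟨g₀, hg₀Γ, hg₀⟩ := hirr e₁ he₁0
  have hind : ∀ a b : k, a • e₁ + b • ((g₀ : M2 k) *ᵥ e₁) = 0 → a = 0 ∧ b = 0 := by
    intro a b hab
    have hb : b = 0 := by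
      by_contra hb
      apply hg₀ (-(b⁻¹ * a))
      have h1 : b • ((g₀ : M2 k) *ᵥ e₁) = -(a • e₁) := by
        rw [eq_neg_iff_add_eq_zero, add_comm]
        exact hab
      have h2 := congrArg (fun v => b⁻¹ • v) h1
      simp only [smul_smul, inv_mul_cancel₀ hb, one_smul, smul_neg] at h2
      rw [h2, neg_smul]
    refine ⟨?_, hb⟩
    rw [hb, zero_smul, add_zero] at hab
    exact (smul_eq_zero.1 hab).resolve_right he₁0
  obtain ⟨s, hs1, hs2⟩ := exists_basis_change e₁ ((g₀ : M2 k) *ᵥ e₁) hind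
  -- the conjugates of the elements of `P` are upper unipotent
  have hA : ∀ h ∈ P, ∃ x, s * h * s⁻¹ = uu x := by
    intro h hh
    apply eq_uu_of_fix
    · rw [Position_det_conj, hPdet h hh]
    · have := Position_conj_fix s h e₁ (he₁fix h hh)
      rwa [hs1] at this
  obtain ⟨x₀, hx₀⟩ := hA h₀ hh₀P
  have hx₀0 : x₀ ≠ 0 := by
    rintro rfl
    rw [uu_zero] at hx₀
    apply hh₀1
    have e : h₀ = s⁻¹ * (s * h₀ * s⁻¹) * s := by group
    rw [e, hx₀]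
    group
  refine ⟨s, ?_, ?_, ?_⟩
  · intro hdvd
    apply hPidx
    have hle : conjSub s P ≤ upU (conjSub s Γ) := by
      rintro _ ⟨h, hh, rfl⟩
      have e : (MulAut.conj s).toMonoidHom h = s * h * s⁻¹ := rfl
      rw [e]
      exact ⟨Position_conj_mem (hPΓ hh), hA h hh⟩
    have h1 := Subgroup.relIndex_dvd_of_le_left (conjSub s Γ) hle
    have h2 : (conjSub s P).relIndex (conjSub s Γ) = P.relIndex Γ :=
      Subgroup.relIndex_map_map_of_injective P Γ (MulAut.conj s).injective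
    rw [h2] at h1
    exact dvd_trans hdvd h1
  · have hfix : ((g₀ * h₀ * g₀⁻¹ : GL (Fin 2) k) : M2 k) *ᵥ ((g₀ : M2 k) *ᵥ e₁) =
        (g₀ : M2 k) *ᵥ e₁ := Position_conj_fix g₀ h₀ e₁ (he₁fix h₀ hh₀P)
    obtain ⟨y, hy⟩ := eq_vv_of_fix (s * (g₀ * h₀ * g₀⁻¹) * s⁻¹)
      (by rw [Position_det_conj, Position_det_conj, hPdet h₀ hh₀P])
      (by
        have := Position_conj_fix s _ _ hfix
        rwa [hs2] at this)
    refine ⟨y, ?_, ?_⟩
    · rintro rfl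
      rw [vv_zero] at hy
      apply hh₀1
      have e : h₀ = g₀⁻¹ * (s⁻¹ * (s * (g₀ * h₀ * g₀⁻¹) * s⁻¹) * s) * g₀ := by group
      rw [e, hy]
      group
    · rw [← hy]
      exact Position_conj_mem (Γ.mul_mem (Γ.mul_mem hg₀Γ (hPΓ hh₀P)) (Γ.inv_mem hg₀Γ))
  · intro g hg
    obtain ⟨t₀, ht₀Γ, hnorm, hdet⟩ := hfrat g hg
    refine ⟨s * t₀ * s⁻¹, Position_conj_mem ht₀Γ, ?_, ?_⟩
    · -- `t₀ e₁` is fixed by `h₀`
      have hmem : t₀⁻¹ * h₀ * t₀ ∈ P := by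
        rw [hnorm]
        have e : t₀ * (t₀⁻¹ * h₀ * t₀) * t₀⁻¹ = h₀ := by group
        rwa [e]
      have h1 : (h₀ : M2 k) *ᵥ ((t₀ : M2 k) *ᵥ e₁) = (t₀ : M2 k) *ᵥ e₁ := by
        have h2 := he₁fix _ hmem
        have h3 : (t₀ : M2 k) *ᵥ (((t₀⁻¹ * h₀ * t₀ : GL (Fin 2) k) : M2 k) *ᵥ e₁) =
            (t₀ : M2 k) *ᵥ e₁ := congrArg (fun v => (t₀ : M2 k) *ᵥ v) h2
        rw [← Position_mul_mulVec] at h3
        have e : t₀ * (t₀⁻¹ * h₀ * t₀) = h₀ * t₀ := by group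
        rw [e, Position_mul_mulVec] at h3
        exact h3
      have h4 := Position_conj_fix s h₀ _ h1
      rw [hx₀] at h4
      have h5 : (s : M2 k) *ᵥ ((t₀ : M2 k) *ᵥ e₁) =
          ((s * t₀ * s⁻¹ : GL (Fin 2) k) : M2 k) *ᵥ ![1, 0] := by
        rw [← hs1, Position_mul_mulVec, Position_mul_mulVec, Position_inv_mulVec]
      rw [h5] at h4
      have h6 := congrFun h4 0
      simp only [coe_uu, Matrix.mulVec, dotProduct, Fin.sum_univ_two, Matrix.of_apply,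
        Matrix.cons_val_zero, Matrix.cons_val_one, mul_one, mul_zero, add_zero, one_mul] at h6
      have h7 : x₀ * ((s * t₀ * s⁻¹ : GL (Fin 2) k) : M2 k) 1 0 = 0 := by
        linear_combination h6
      exact (mul_eq_zero.1 h7).resolve_left hx₀0
    · have h1 := congrArg Units.val ((Position_det_conj s t₀).trans hdet)
      rwa [Matrix.GeneralLinearGroup.val_det_apply, Matrix.GeneralLinearGroup.val_det_apply] at h1

end Fermat.Agent.S56.T

end
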